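import Mathlib

/-!
# Exponential and logarithm of power series over an algebra

Substitution of a series without constant term into a series over the field is multiplicative, so
the formal identities between `exp` and `log` carry over to a possibly noncommutative algebra.
-/

set_option autoImplicit false

noncomputable section

namespace FA.BCH

open PowerSeries Finset

variable {K : Type*} [Field K] {B : Type*} [Ring B] [Algebra K B]

/-- Substitute `z` into `f`; meaningful when `z` has no constant term. -/
def sub (f : PowerSeries K) (z : PowerSeries B) : PowerSeries B :=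
  PowerSeries.mk fun n => ∑ k ∈ range (n + 1), coeff k f • coeff n (z ^ k)

lemma coeff_pow_eq_zero {z : PowerSeries B} (hz : coeff 0 z = 0) :
    ∀ {n k : ℕ}, n < k → coeff n (z ^ k) = 0 := by
  intro n k
  induction k generalizing n with
  | zero => omega
  | succ k ih =>
    intro h
    rw [pow_succ, coeff_mul]
    refine sum_eq_zero fun x hx => ?_
    have hx := HasAntidiagonal.mem_antidiagonal.1 hx
    rcases Nat.eq_zero_or_pos x.2 with h2 | h2
    · rw [h2, hz, mul_zero]
    · rw [ih (by omega), zero_mul]

lemma coeff_sub_eq {f : PowerSeries K} {z : PowerSeries B} (hz : coeff 0 z = 0) {n N : ℕ}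
    (hN : n < N) : coeff n (sub f z) = ∑ k ∈ range N, coeff k f • coeff n (z ^ k) := by
  rw [sub, coeff_mk]
  refine sum_subset (range_mono (by omega)) fun k _ hk => ?_
  rw [coeff_pow_eq_zero hz (by simp at hk; omega), smul_zero]

lemma sum_square_eq {M : Type*} [AddCommMonoid M] (N : ℕ) (h : ℕ → ℕ → M)
    (h0 : ∀ i j, N ≤ i + j → h i j = 0) :
    ∑ i ∈ range N, ∑ j ∈ range N, h i j = ∑ k ∈ range N, ∑ x ∈ antidiagonal k, h x.1 x.2 := by
  rw [← sum_product', ← sum_filter_of_ne (p := fun x : ℕ × ℕ => x.1 + x.2 < N) fun x _ hx => by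
    by_contra hc
    exact hx (h0 _ _ (by omega))]
  rw [← sum_fiberwise_of_maps_to (g := fun x : ℕ × ℕ => x.1 + x.2) (t := range N) fun x hx => by
    exact mem_range.2 (mem_filter.1 hx).2]
  refine sum_congr rfl fun k hk => sum_congr ?_ fun x _ => rfl
  ext x
  simp only [mem_filter, mem_product, mem_range, HasAntidiagonal.mem_antidiagonal] at hk ⊢
  omega

lemma sub_mul {z : PowerSeries B} (hz : coeff 0 z = 0) (f g : PowerSeries K) :
    sub (f * g) z = sub f z * sub g z := by
  ext n
  have hlhs : coeff n (sub (f * g) z) =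
      ∑ k ∈ range (n + 1), ∑ x ∈ antidiagonal k,
        (coeff x.1 f * coeff x.2 g) • coeff n (z ^ (x.1 + x.2)) := by
    rw [coeff_sub_eq hz n.lt_succ_self]
    refine sum_congr rfl fun k _ => ?_
    rw [coeff_mul, sum_smul]
    refine sum_congr rfl fun x hx => ?_
    rw [HasAntidiagonal.mem_antidiagonal.1 hx]
  rw [hlhs, ← sum_square_eq (n + 1) fun i j => (coeff i f * coeff j g) • coeff n (z ^ (i + j))]
  · rw [coeff_mul]
    rw [show ∑ x ∈ antidiagonal n, coeff x.1 (sub f z) * coeff x.2 (sub g z) =
        ∑ x ∈ antidiagonal n, ∑ i ∈ range (n + 1), ∑ j ∈ range (n + 1),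
          (coeff i f * coeff j g) • (coeff x.1 (z ^ i) * coeff x.2 (z ^ j)) from
      sum_congr rfl fun x hx => by
        have hx := HasAntidiagonal.mem_antidiagonal.1 hx
        rw [coeff_sub_eq hz (N := n + 1) (by omega), coeff_sub_eq hz (N := n + 1) (by omega),
          sum_mul_sum]
        simp only [smul_mul_smul_comm]]
    conv_rhs => rw [sum_comm]
    refine sum_congr rfl fun i _ => ?_
    conv_rhs => rw [sum_comm]
    refine sum_congr rfl fun j _ => ?_
    rw [pow_add, coeff_mul, smul_sum]
  · exact fun i j h => by rw [coeff_pow_eq_zero hz (by omega), smul_zero]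

lemma sub_one (z : PowerSeries B) : sub (1 : PowerSeries K) z = 1 := by
  ext n
  rw [sub, coeff_mk, sum_eq_single 0]
  · simp
  · intro k _ hk; simp [coeff_one, hk]
  · simp

lemma sub_pow {z : PowerSeries B} (hz : coeff 0 z = 0) (f : PowerSeries K) (k : ℕ) :
    sub (f ^ k) z = sub f z ^ k := by
  induction k with
  | zero => rw [pow_zero, pow_zero, sub_one]
  | succ k ih => rw [pow_succ, pow_succ, sub_mul hz, ih]

lemma sub_sub_series (f g : PowerSeries K) (z : PowerSeries B) :
    sub (f - g) z = sub f z - sub g z := by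
  ext n
  simp [sub, _root_.sub_smul, sum_sub_distrib]

lemma coeff_zero_sub {f : PowerSeries K} (z : PowerSeries B) :
    coeff 0 (sub f z) = coeff 0 f • (1 : B) := by
  simp [sub]

lemma sub_X {z : PowerSeries B} (hz : coeff 0 z = 0) : sub (X : PowerSeries K) z = z := by
  ext n
  rw [coeff_sub_eq hz (N := n + 2) (by omega), sum_eq_single 1]
  · simp
  · intro k _ hk; simp [coeff_X, hk]
  · simp

lemma sub_series_X (f : PowerSeries K) : sub f (X : PowerSeries K) = f := by
  ext n
  simp [sub, coeff_X_pow]

lemma sub_sub_assoc {g : PowerSeries K} (hg : coeff 0 g = 0) {w : PowerSeries B}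
    (hw : coeff 0 w = 0) (f : PowerSeries K) : sub f (sub g w) = sub (sub f g) w := by
  have hgw : coeff 0 (sub g w) = 0 := by rw [coeff_zero_sub, hg, zero_smul]
  ext n
  rw [coeff_sub_eq hgw n.lt_succ_self, coeff_sub_eq hw n.lt_succ_self]
  have hL : ∀ k, coeff n (sub g w ^ k) = ∑ j ∈ range (n + 1), coeff j (g ^ k) • coeff n (w ^ j) :=
    fun k => by rw [← sub_pow hw, coeff_sub_eq hw n.lt_succ_self]
  simp only [hL, smul_sum, smul_smul]
  rw [sum_comm]
  refine sum_congr rfl fun j hj => ?_
  rw [coeff_sub_eq hg (N := n + 1) (by simpa using hj)]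
  simp only [smul_eq_mul, sum_smul]

variable [CharZero K]

/-- The exponential. -/
def expS (z : PowerSeries B) : PowerSeries B := sub (PowerSeries.exp K) z

lemma coeff_exp' (k : ℕ) : coeff k (PowerSeries.exp K) = (k.factorial : K)⁻¹ := by
  rw [coeff_exp]; simp

/-- The logarithm series, in powers of `E - 1`. -/
def logSeries : PowerSeries K :=
  PowerSeries.mk fun k => if k = 0 then 0 else (-1 : K) ^ (k - 1) / k

/-- The logarithm. -/
def logS (E : PowerSeries B) : PowerSeries B := sub (logSeries (K := K)) (E - 1)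

lemma logSeries_sub_exp : sub (logSeries (K := K)) (PowerSeries.exp K - 1) = X := by
  have hw : coeff 0 (PowerSeries.exp K - 1) = 0 := by simp
  ext n
  rcases n with _ | m
  · rw [coeff_zero_sub]; simp [logSeries]
  set e := PowerSeries.exp K with he
  set T : PowerSeries K := ∑ k ∈ range (m + 1), ((-1 : K) ^ k / (k + 1 : ℕ)) • (e - 1) ^ (k + 1)
    with hT
  have h1 : coeff (m + 1) (sub (logSeries (K := K)) (e - 1)) = coeff (m + 1) T := by
    rw [coeff_sub_eq hw (N := m + 2) (by omega), sum_range_succ', hT, map_sum]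
    simp [logSeries]
  have h2 : d⁄dX K T = 1 - (1 - e) ^ (m + 1) := by
    have hD : d⁄dX K (e - 1) = e := by rw [map_sub, he, derivative_exp]; simp
    have hterm : ∀ k : ℕ, d⁄dX K (((-1 : K) ^ k / (k + 1 : ℕ)) • (e - 1) ^ (k + 1)) =
        (1 - e) ^ k * e := fun k => by
      rw [Derivation.map_smul, Derivation.leibniz_pow, hD, Nat.add_sub_cancel, smul_eq_mul,
        ← Nat.cast_smul_eq_nsmul K (k + 1), smul_smul, div_mul_cancel₀ _ (by
          exact_mod_cast Nat.succ_ne_zero k), show (1 - e) = -(e - 1) by ring, neg_pow (e - 1),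
        smul_eq_C_mul]
      simp only [map_pow, map_neg, map_one, mul_assoc]
    rw [hT, map_sum]
    simp only [hterm]
    rw [← sum_mul]
    have := geom_sum_mul (1 - e) (m + 1)
    linear_combination -this
  have h3 : coeff m (d⁄dX K T) = if m = 0 then (1 : K) else 0 := by
    rw [h2, map_sub, coeff_one, coeff_pow_eq_zero (z := 1 - e) (by simp [he]) (by omega : m < m + 1),
      sub_zero]
  rw [coeff_derivative] at h3
  rw [h1, coeff_X]
  rcases m with _ | m
  · simpa using h3
  · rw [if_neg (by omega)] at h3 ⊢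
    rcases mul_eq_zero.1 h3 with h | h
    · exact h
    · exact absurd h (Nat.cast_add_one_ne_zero _)

lemma sub_exp_sub_one_injective {f g : PowerSeries K}
    (h : sub f (PowerSeries.exp K - 1) = sub g (PowerSeries.exp K - 1)) : f = g := by
  set w := PowerSeries.exp K - 1 with hwdef
  have hw : coeff 0 w = 0 := by simp [hwdef]
  have hdiag : ∀ n, coeff n (w ^ n) = 1 := fun n => by
    induction n with
    | zero => simp
    | succ n ih =>
      rw [pow_succ, coeff_mul, sum_eq_single (n, 1)]
      · rw [ih]; simp [hwdef, coeff_one]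
      · intro x hx hne
        have hx := HasAntidiagonal.mem_antidiagonal.1 hx
        rcases Nat.lt_or_ge x.1 n with h1 | h1
        · rw [coeff_pow_eq_zero hw h1, zero_mul]
        · have : x.2 = 0 := by
            by_contra h2
            exact hne (Prod.ext (by simp; omega) (by simp; omega))
          rw [this, hw, mul_zero]
      · simp
  ext n
  induction n using Nat.strong_induction_on with
  | _ n ih =>
    have hn := congrArg (coeff n) h
    rw [coeff_sub_eq hw n.lt_succ_self, coeff_sub_eq hw n.lt_succ_self, sum_range_succ,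
      sum_range_succ, sum_congr rfl fun k hk => by rw [ih k (mem_range.1 hk)]] at hn
    simpa [hdiag] using hn

lemma exp_sub_logSeries : sub (PowerSeries.exp K) (logSeries (K := K)) = 1 + X := by
  refine sub_exp_sub_one_injective ?_
  have hw : coeff 0 (PowerSeries.exp K - 1) = 0 := by simp
  rw [← sub_sub_assoc (by simp [logSeries]) hw, logSeries_sub_exp, sub_series_X]
  have h : sub (1 + X : PowerSeries K) (PowerSeries.exp K - 1) =
      sub (1 : PowerSeries K) (PowerSeries.exp K - 1) +
        sub (X : PowerSeries K) (PowerSeries.exp K - 1) := by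
    ext n
    simp [sub, sum_add_distrib, add_mul]
  rw [h, sub_one, sub_X hw, add_sub_cancel]

lemma expS_logS {E : PowerSeries B} (hE : coeff 0 E = 1) :
    expS (K := K) (logS (K := K) E) = E := by
  have hw : coeff 0 (E - 1) = 0 := by rw [map_sub, hE, coeff_zero_one, sub_self]
  rw [expS, logS, sub_sub_assoc (by simp [logSeries]) hw, exp_sub_logSeries,
    show (1 : PowerSeries K) + X = X - (0 - 1) by ring, sub_sub_series, sub_sub_series, sub_one,
    sub_X hw]
  rw [show sub (0 : PowerSeries K) (E - 1) = 0 by ext n; simp [sub]]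
  abel

omit [CharZero K] in
lemma coeff_zero_logS (E : PowerSeries B) : coeff 0 (logS (K := K) E) = 0 := by
  rw [logS, coeff_zero_sub]; simp [logSeries]

lemma coeff_zero_expS (z : PowerSeries B) : coeff 0 (expS (K := K) z) = 1 := by
  rw [expS, coeff_zero_sub]; simp

lemma logS_expS {z : PowerSeries B} (hz : coeff 0 z = 0) :
    logS (K := K) (expS (K := K) z) = z := by
  rw [logS, expS, ← sub_one (K := K) z, ← sub_sub_series, sub_sub_assoc (by simp) hz,
    logSeries_sub_exp, sub_X hz]

lemma expS_injective {z w : PowerSeries B} (hz : coeff 0 z = 0) (hw : coeff 0 w = 0)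
    (h : expS (K := K) z = expS (K := K) w) : z = w := by
  rw [← logS_expS (K := K) hz, h, logS_expS hw]

/-- The exponential of a sum of commuting series. -/
lemma expS_add {z w : PowerSeries B} (hz : coeff 0 z = 0) (hw : coeff 0 w = 0)
    (hc : Commute z w) : expS (K := K) (z + w) = expS (K := K) z * expS (K := K) w := by
  have hmix : ∀ {n i j : ℕ}, n < i + j → coeff n (z ^ i * w ^ j) = 0 := fun {n i j} h => by
    rw [coeff_mul]
    refine sum_eq_zero fun x hx => ?_
    have hx := HasAntidiagonal.mem_antidiagonal.1 hx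
    rcases Nat.lt_or_ge x.1 i with h1 | h1
    · rw [coeff_pow_eq_zero hz h1, zero_mul]
    · rw [coeff_pow_eq_zero hw (by omega : x.2 < j), mul_zero]
  ext n
  have hlhs : coeff n (expS (K := K) (z + w)) = ∑ k ∈ range (n + 1), ∑ x ∈ antidiagonal k,
      ((x.1.factorial : K)⁻¹ * (x.2.factorial : K)⁻¹) • coeff n (z ^ x.1 * w ^ x.2) := by
    rw [expS, coeff_sub_eq (by rw [map_add, hz, hw, add_zero]) n.lt_succ_self]
    refine sum_congr rfl fun k _ => ?_
    rw [hc.add_pow', map_sum, smul_sum]
    refine sum_congr rfl fun x hx => ?_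
    have hx := HasAntidiagonal.mem_antidiagonal.1 hx
    rw [coeff_exp', map_nsmul, ← Nat.cast_smul_eq_nsmul K, smul_smul]
    congr 1
    rw [← hx, Nat.cast_add_choose]
    have : ((x.1 + x.2).factorial : K) ≠ 0 := Nat.cast_ne_zero.2 (Nat.factorial_ne_zero _)
    field_simp
  rw [hlhs, ← sum_square_eq (n + 1) fun i j =>
    ((i.factorial : K)⁻¹ * (j.factorial : K)⁻¹) • coeff n (z ^ i * w ^ j)]
  · rw [coeff_mul]
    rw [show ∑ x ∈ antidiagonal n, coeff x.1 (expS (K := K) z) * coeff x.2 (expS (K := K) w) =
        ∑ x ∈ antidiagonal n, ∑ i ∈ range (n + 1), ∑ j ∈ range (n + 1),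
          ((i.factorial : K)⁻¹ * (j.factorial : K)⁻¹) • (coeff x.1 (z ^ i) * coeff x.2 (w ^ j)) from
      sum_congr rfl fun x hx => by
        have hx := HasAntidiagonal.mem_antidiagonal.1 hx
        rw [expS, expS, coeff_sub_eq hz (N := n + 1) (by omega),
          coeff_sub_eq hw (N := n + 1) (by omega), sum_mul_sum]
        simp only [smul_mul_smul_comm, coeff_exp']]
    conv_rhs => rw [sum_comm]
    refine sum_congr rfl fun i _ => ?_
    conv_rhs => rw [sum_comm]
    refine sum_congr rfl fun j _ => ?_
    rw [coeff_mul, smul_sum]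
  · exact fun i j h => by rw [hmix (by omega), smul_zero]

variable {B' : Type*} [Ring B'] [Algebra K B']

omit [CharZero K] in
lemma map_sub_series (ψ : B →ₐ[K] B') (f : PowerSeries K) (z : PowerSeries B) :
    PowerSeries.map (ψ : B →+* B') (sub f z) = sub f (PowerSeries.map (ψ : B →+* B') z) := by
  ext n
  simp only [coeff_map, sub, coeff_mk, map_sum, ← map_pow, RingHom.coe_coe, map_smul]

lemma map_expS (ψ : B →ₐ[K] B') (z : PowerSeries B) :
    PowerSeries.map (ψ : B →+* B') (expS (K := K) z) =
      expS (K := K) (PowerSeries.map (ψ : B →+* B') z) :=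
  map_sub_series ψ _ z

omit [CharZero K] in
/-- Series with commuting coefficients commute. -/
lemma commute_of_coeff {z w : PowerSeries B} (h : ∀ i j, Commute (coeff i z) (coeff j w)) :
    Commute z w := by
  refine PowerSeries.ext fun n => ?_
  rw [coeff_mul, coeff_mul, ← Nat.sum_antidiagonal_swap]
  exact sum_congr rfl fun x _ => (h _ _).eq

end FA.BCH
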