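import Fermat.Agent.BCH.Primitive
import Fermat.Agent.BCH.Series

/-!
# The Baker–Campbell–Hausdorff theorem

`exp (t x) * exp (t y)` is group-like, so its logarithm has primitive coefficients, which are Lie
polynomials by the criterion of Friedrichs.
-/

set_option autoImplicit false

noncomputable section

namespace FA.BCH

open PowerSeries TensorProduct Finset

attribute [local instance 100] LieRing.ofAssociativeRing

variable (K : Type*) [Field K] [CharZero K]

/-- A generator times the variable. -/
def gen (i : Fin 2) : PowerSeries (FreeAlgebra K (Fin 2)) :=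
  PowerSeries.monomial 1 (FreeAlgebra.ι K i)

/-- `exp (t x) * exp (t y)`. -/
def product : PowerSeries (FreeAlgebra K (Fin 2)) :=
  expS (K := K) (gen K 0) * expS (K := K) (gen K 1)

omit [CharZero K] in
lemma coeff_zero_gen (i : Fin 2) : coeff 0 (gen K i) = 0 := by
  rw [gen, coeff_monomial, if_neg zero_ne_one]

lemma coeff_zero_product : coeff 0 (product K) = 1 := by
  rw [product, coeff_zero_eq_constantCoeff_apply, map_mul, ← coeff_zero_eq_constantCoeff_apply,
    ← coeff_zero_eq_constantCoeff_apply, coeff_zero_expS, coeff_zero_expS, mul_one]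

/-- The coefficients of `exp (t x) * exp (t y)`. -/
lemma coeff_product (n : ℕ) : coeff n (product K) = ∑ x ∈ antidiagonal n,
    ((x.1.factorial : K)⁻¹ * (x.2.factorial : K)⁻¹) •
      (FreeAlgebra.ι K (0 : Fin 2) ^ x.1 * FreeAlgebra.ι K (1 : Fin 2) ^ x.2) := by
  have hpow : ∀ (i : Fin 2) k m, coeff m (gen K i ^ k) =
      if m = k then FreeAlgebra.ι K i ^ k else 0 := by
    intro i k
    induction k with
    | zero => intro m; simp [coeff_one]
    | succ k ih =>
      intro m
      rw [pow_succ, coeff_mul, pow_succ]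
      by_cases h : m = k + 1
      · subst h
        rw [if_pos rfl, sum_eq_single (k, 1)]
        · rw [ih, if_pos rfl, gen, coeff_monomial, if_pos rfl]
        · intro x hx hne
          rw [gen, coeff_monomial]
          have hx := HasAntidiagonal.mem_antidiagonal.1 hx
          split
          · exact absurd (Prod.ext (by simp; omega) (by simpa using ‹x.2 = 1›)) hne
          · rw [mul_zero]
        · simp
      · rw [if_neg h]
        refine sum_eq_zero fun x hx => ?_
        have hx := HasAntidiagonal.mem_antidiagonal.1 hx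
        rw [ih, gen, coeff_monomial]
        split_ifs <;> first | omega | simp
  have hexp : ∀ (i : Fin 2) m, coeff m (expS (K := K) (gen K i)) =
      (m.factorial : K)⁻¹ • FreeAlgebra.ι K i ^ m := fun i m => by
    rw [expS, coeff_sub_eq (coeff_zero_gen K i) m.lt_succ_self, sum_eq_single m]
    · rw [coeff_exp', hpow, if_pos rfl]
    · intro k _ hk; rw [hpow, if_neg (Ne.symm hk), smul_zero]
    · simp
  rw [product, coeff_mul]
  exact sum_congr rfl fun x _ => by rw [hexp, hexp, smul_mul_smul_comm]

local notation "F2" => FreeAlgebra K (Fin 2)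
local notation "T2" => FreeAlgebra K (Fin 2) ⊗[K] FreeAlgebra K (Fin 2)

/-- The coefficients of the logarithm are primitive. -/
lemma coeff_logS_primitive (n : ℕ) :
    freeComul K (Fin 2) (coeff n (logS (K := K) (product K))) =
      coeff n (logS (K := K) (product K)) ⊗ₜ[K] 1 + 1 ⊗ₜ[K] coeff n (logS (K := K) (product K)) := by
  let iL : FreeAlgebra K (Fin 2) →ₐ[K] FreeAlgebra K (Fin 2) ⊗[K] FreeAlgebra K (Fin 2) :=
    Algebra.TensorProduct.includeLeft
  let iR : FreeAlgebra K (Fin 2) →ₐ[K] FreeAlgebra K (Fin 2) ⊗[K] FreeAlgebra K (Fin 2) :=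
    Algebra.TensorProduct.includeRight
  set Z := logS (K := K) (product K)
  have hcomm : ∀ u v : PowerSeries (FreeAlgebra K (Fin 2)),
      Commute (PowerSeries.map (iL : F2 →+* T2) u) (PowerSeries.map (iR : F2 →+* T2) v) := fun u v =>
    commute_of_coeff fun i j => by
      simp [coeff_map, iL, iR, commute_iff_eq, Algebra.TensorProduct.tmul_mul_tmul]
  have hgen : ∀ i, PowerSeries.map (freeComul K (Fin 2) : F2 →+* T2) (gen K i) =
      PowerSeries.map (iL : F2 →+* T2) (gen K i) + PowerSeries.map (iR : F2 →+* T2) (gen K i) := by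
    intro i
    ext n
    simp only [gen, coeff_map, map_add, coeff_monomial, RingHom.coe_coe]
    split_ifs with h
    · simp [freeComul, iL, iR]
    · simp
  have h0 : ∀ (ψ : FreeAlgebra K (Fin 2) →ₐ[K] FreeAlgebra K (Fin 2) ⊗[K] FreeAlgebra K (Fin 2))
      (u : PowerSeries (FreeAlgebra K (Fin 2))), coeff 0 u = 0 →
      coeff 0 (PowerSeries.map (ψ : F2 →+* T2) u) = 0 := fun ψ u hu => by
    rw [coeff_map, hu, map_zero]
  have hZ0 : coeff 0 Z = 0 := coeff_zero_logS (K := K) _
  have hprod : PowerSeries.map (freeComul K (Fin 2) : F2 →+* T2) (product K) =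
      PowerSeries.map (iL : F2 →+* T2) (product K) * PowerSeries.map (iR : F2 →+* T2) (product K) := by
    rw [product, map_mul, map_mul, map_mul, map_expS, map_expS, hgen, hgen,
      expS_add (h0 _ _ (coeff_zero_gen K 0)) (h0 _ _ (coeff_zero_gen K 0)) (hcomm _ _),
      expS_add (h0 _ _ (coeff_zero_gen K 1)) (h0 _ _ (coeff_zero_gen K 1)) (hcomm _ _),
      ← map_expS, ← map_expS, ← map_expS, ← map_expS]
    rw [mul_assoc, mul_assoc, ← mul_assoc (PowerSeries.map (iR : F2 →+* T2) _),
      ← (hcomm _ _).eq, mul_assoc]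
  have hmain : PowerSeries.map (freeComul K (Fin 2) : F2 →+* T2) Z =
      PowerSeries.map (iL : F2 →+* T2) Z + PowerSeries.map (iR : F2 →+* T2) Z := by
    refine expS_injective (K := K) (h0 _ _ hZ0) ?_ ?_
    · rw [map_add, h0 _ _ hZ0, h0 _ _ hZ0, add_zero]
    · rw [expS_add (h0 _ _ hZ0) (h0 _ _ hZ0) (hcomm _ _), ← map_expS, ← map_expS, ← map_expS,
        expS_logS (coeff_zero_product K), hprod]
  have := congrArg (coeff n) hmain
  rw [map_add, coeff_map, coeff_map, coeff_map] at this
  exact this

omit [CharZero K] in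
/-- The coefficients of the logarithm as explicit sums. -/
lemma coeff_logS_eq {E : PowerSeries (FreeAlgebra K (Fin 2))} (hE : coeff 0 E = 1) (n : ℕ) :
    coeff n (logS (K := K) E) =
      ∑ k ∈ Icc 1 n, ((-1 : K) ^ (k - 1) / k) • coeff n ((E - 1) ^ k) := by
  rw [logS, coeff_sub_eq (by rw [map_sub, hE, coeff_zero_one, sub_self]) n.lt_succ_self]
  refine (sum_subset (fun k hk => ?_) fun k hk hk' => ?_).symm.trans (sum_congr rfl fun k hk => ?_)
  · simp at hk ⊢; omega
  · have : k = 0 := by simp at hk hk'; omega
    simp [this, logSeries]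
  · rw [logSeries, coeff_mk, if_neg (by simp at hk; omega)]

/-- The Baker–Campbell–Hausdorff theorem. -/
theorem coeff_logS_mem (n : ℕ) :
    coeff n (logS (K := K) (product K)) ∈ lieSpanGenerators K (Fin 2) :=
  (freeComul_eq_iff _).1 (coeff_logS_primitive K n)

end FA.BCH
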