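import Fermat.Agent.PBW.Basis

/-!
# Primitive elements of the enveloping algebra

In characteristic zero the primitive elements of an enveloping algebra are the elements of the Lie
algebra, and those of a free algebra are the Lie polynomials (Friedrichs).
-/

set_option autoImplicit false

noncomputable section

namespace FA.BCH

open Module TensorProduct FA.PBW

attribute [local instance 100] LieRing.ofAssociativeRing

section Enveloping

variable {K L : Type*} [Field K] [LieRing L] [LieAlgebra K L]

local notation "U" => UniversalEnvelopingAlgebra K L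
local notation "ιU" => UniversalEnvelopingAlgebra.ι K (L := L)

/-- `x ↦ x ⊗ 1 + 1 ⊗ x` as a morphism of Lie algebras. -/
def splitHom (K L : Type*) [Field K] [LieRing L] [LieAlgebra K L] :
    L →ₗ⁅K⁆ UniversalEnvelopingAlgebra K L ⊗[K] UniversalEnvelopingAlgebra K L :=
  { toFun := fun x => UniversalEnvelopingAlgebra.ι K x ⊗ₜ[K] 1 + 1 ⊗ₜ[K] UniversalEnvelopingAlgebra.ι K x
    map_add' := fun x y => by simp only [map_add, add_tmul, tmul_add]; abel
    map_smul' := fun t x => by simp [smul_add, smul_tmul', tmul_smul]
    map_lie' := fun {x y} => by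
      simp only [LieRing.of_associative_ring_bracket, LieHom.map_lie, mul_add, add_mul,
        Algebra.TensorProduct.tmul_mul_tmul, one_mul, mul_one, sub_tmul, tmul_sub]
      abel }

/-- The comultiplication. -/
def comul (K L : Type*) [Field K] [LieRing L] [LieAlgebra K L] :
    UniversalEnvelopingAlgebra K L →ₐ[K]
      UniversalEnvelopingAlgebra K L ⊗[K] UniversalEnvelopingAlgebra K L :=
  UniversalEnvelopingAlgebra.lift K (splitHom K L)

lemma comul_ι (x : L) : comul K L (ιU x) = ιU x ⊗ₜ[K] 1 + 1 ⊗ₜ[K] ιU x :=
  UniversalEnvelopingAlgebra.lift_ι_apply K (splitHom K L) x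

variable {ι : Type*} [LinearOrder ι] (b : Basis ι K L)

lemma comul_monomial (s : Multiset ι) : comul K L (monomial b s) =
    (s.powerset.map fun t => monomial b t ⊗ₜ[K] monomial b (s - t)).sum := by
  induction hn : Multiset.card s generalizing s with
  | zero =>
    rw [Multiset.card_eq_zero.1 hn, monomial_zero, map_one]
    simp [monomial_zero, Algebra.TensorProduct.one_def]
  | succ n ih =>
    have hne : s.toFinset.Nonempty := by
      rw [Multiset.toFinset_nonempty]
      rintro rfl
      simp at hn
    obtain ⟨k, t, rfl, hk⟩ : ∃ k t, s = k ::ₘ t ∧ ∀ j ∈ t, k ≤ j :=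
      ⟨_, _, (Multiset.cons_erase (Multiset.mem_toFinset.1 (s.toFinset.min'_mem hne))).symm,
        fun j hj => Finset.min'_le _ _ (Multiset.mem_toFinset.2 (Multiset.mem_of_mem_erase hj))⟩
    rw [monomial_cons b hk, map_mul, ih t (by simpa using hn), comul_ι, Multiset.powerset_cons,
      Multiset.map_add, Multiset.sum_add, Multiset.map_map, add_mul, ← Multiset.sum_map_mul_left,
      ← Multiset.sum_map_mul_left, add_comm]
    congr 1 <;> refine congrArg Multiset.sum (Multiset.map_congr rfl fun u hu => ?_)
    · have hu := Multiset.mem_powerset.1 hu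
      rw [Algebra.TensorProduct.tmul_mul_tmul, one_mul, Multiset.cons_sub_of_le k hu,
        monomial_cons b fun j hj => hk j (Multiset.mem_of_le (Multiset.sub_le_self t u) hj)]
    · have hu := Multiset.mem_powerset.1 hu
      rw [Algebra.TensorProduct.tmul_mul_tmul, one_mul, Function.comp_apply,
        monomial_cons b fun j hj => hk j (Multiset.mem_of_le hu hj), Multiset.sub_cons,
        Multiset.erase_cons_head]

variable [CharZero K]

include b in
/-- Primitive elements lie in the Lie algebra. -/
theorem mem_range_of_primitive {u : U} (hu : comul K L u = u ⊗ₜ[K] 1 + 1 ⊗ₜ[K] u) :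
    ∃ x : L, ιU x = u := by
  classical
  set B := pbwBasis b
  set B2 := B.tensorProduct B
  have hone : (1 : U) = B 0 := by rw [pbwBasis_apply, monomial_zero]
  have hcoord : ∀ (s T W : Multiset ι), B2.repr (comul K L (B s)) (T, W) =
      if s = T + W then (s.powerset.count T : K) else 0 := by
    intro s T W
    rw [pbwBasis_apply, comul_monomial, map_multiset_sum, Multiset.map_map]
    rw [show ((s.powerset.map ((fun w => B2.repr w) ∘ fun t =>
        monomial b t ⊗ₜ[K] monomial b (s - t))).sum : _ →₀ K) (T, W) =
        (s.powerset.map fun t =>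
          B2.repr (monomial b t ⊗ₜ[K] monomial b (s - t)) (T, W)).sum from by
      induction s.powerset using Multiset.induction with
      | empty => simp
      | cons a m ih =>
        simp only [Function.comp_def] at ih
        simp only [Multiset.map_cons, Multiset.sum_cons, Finsupp.add_apply, ih, Function.comp_apply]]
    have : ∀ t, B2.repr (monomial b t ⊗ₜ[K] monomial b (s - t)) (T, W) =
        if t = T ∧ s - t = W then (1 : K) else 0 := fun t => by
      rw [← pbwBasis_apply, ← pbwBasis_apply, Basis.tensorProduct_repr_tmul_apply,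
        Basis.repr_self, Basis.repr_self, Finsupp.single_apply, Finsupp.single_apply]
      by_cases h1 : t = T <;> by_cases h2 : s - t = W <;> simp [h1, h2]
    simp only [this]
    have hsum : ∀ m : Multiset (Multiset ι),
        (m.map fun t => if t = T ∧ s - t = W then (1 : K) else 0).sum =
          if s - T = W then (m.count T : K) else 0 := fun m => by
      induction m using Multiset.induction with
      | empty => simp
      | cons a m ih =>
        rw [Multiset.map_cons, Multiset.sum_cons, ih]
        by_cases h1 : a = T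
        · subst h1
          by_cases h2 : s - a = W <;> simp [h2, add_comm]
        · simp [h1, Ne.symm h1]
    rw [hsum]
    by_cases h : s = T + W
    · rw [if_pos h, if_pos (by rw [h, add_tsub_cancel_left])]
    · rw [if_neg h]
      split_ifs with h2
      · rw [Nat.cast_eq_zero, Multiset.count_eq_zero]
        intro hT
        exact h (by rw [← h2, add_tsub_cancel_of_le (Multiset.mem_powerset.1 hT)])
      · rfl
  have hT : ∀ T W : Multiset ι, B2.repr (comul K L u) (T, W) =
      B.repr u (T + W) * ((T + W).powerset.count T : K) := by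
    intro T W
    conv_lhs => rw [← B.linearCombination_repr u, Finsupp.linearCombination_apply, Finsupp.sum,
      map_sum, map_sum]
    simp only [map_smul, Finsupp.coe_finsetSum, Finset.sum_apply, Finsupp.smul_apply, hcoord,
      smul_eq_mul, mul_ite, mul_zero, Finset.sum_ite_eq']
    split_ifs with h
    · rfl
    · rw [Finsupp.notMem_support_iff.1 h, zero_mul]
  have hrhs : ∀ T W : Multiset ι, B2.repr (u ⊗ₜ[K] 1 + 1 ⊗ₜ[K] u) (T, W) =
      (if W = 0 then B.repr u T else 0) + (if T = 0 then B.repr u W else 0) := fun T W => by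
    rw [map_add, Finsupp.add_apply, Basis.tensorProduct_repr_tmul_apply,
      Basis.tensorProduct_repr_tmul_apply, hone, Basis.repr_self, Finsupp.single_apply,
      Finsupp.single_apply]
    by_cases hW : W = 0 <;> by_cases hT : T = 0 <;> simp [hW, hT, Ne.symm]
  have key : ∀ T W : Multiset ι, B.repr u (T + W) * ((T + W).powerset.count T : K) =
      (if W = 0 then B.repr u T else 0) + (if T = 0 then B.repr u W else 0) := fun T W => by
    rw [← hT, hu, hrhs]
  have hsize : ∀ s, Multiset.card s ≠ 1 → B.repr u s = 0 := by
    intro s hs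
    rcases s.empty_or_exists_mem with rfl | ⟨i, hi⟩
    · have := key 0 0
      simp at this
      exact this
    · have hne : s.erase i ≠ 0 := fun h => hs (by
        rw [← Multiset.cons_erase hi, h]; rfl)
      have h := key {i} (s.erase i)
      rw [Multiset.singleton_add, Multiset.cons_erase hi, if_neg hne,
        if_neg (Multiset.singleton_ne_zero i), add_zero, mul_eq_zero, Nat.cast_eq_zero,
        Multiset.count_eq_zero] at h
      exact h.resolve_right fun h' => h' (Multiset.mem_powerset.2 (Multiset.singleton_le.2 hi))
  have hmem : u ∈ LinearMap.range (ιU).toLinearMap := by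
    rw [← B.linearCombination_repr u, Finsupp.linearCombination_apply]
    refine Submodule.sum_mem _ fun s hs => Submodule.smul_mem _ _ ?_
    have h1 : Multiset.card s = 1 := by
      by_contra h
      exact Finsupp.mem_support_iff.1 hs (hsize s h)
    obtain ⟨i, rfl⟩ := Multiset.card_eq_one.1 h1
    exact ⟨b i, by rw [pbwBasis_apply]; simp [monomial]⟩
  obtain ⟨x, hx⟩ := hmem
  exact ⟨x, hx⟩

/-- The primitive elements of an enveloping algebra are the elements of the Lie algebra. -/
theorem primitive_iff (u : U) :
    comul K L u = u ⊗ₜ[K] 1 + 1 ⊗ₜ[K] u ↔ ∃ x : L, ιU x = u := by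
  classical
  refine ⟨fun h => ?_, fun ⟨x, hx⟩ => hx ▸ comul_ι x⟩
  let _ : LinearOrder (Basis.ofVectorSpaceIndex K L) := linearOrderOfSTO WellOrderingRel
  exact mem_range_of_primitive (Basis.ofVectorSpace K L) h

end Enveloping

section Free

variable (K : Type*) [Field K] (X : Type*)

/-- The comultiplication of the free algebra. -/
def freeComul : FreeAlgebra K X →ₐ[K] FreeAlgebra K X ⊗[K] FreeAlgebra K X :=
  FreeAlgebra.lift K fun x => FreeAlgebra.ι K x ⊗ₜ[K] 1 + 1 ⊗ₜ[K] FreeAlgebra.ι K x

/-- The Lie polynomials. -/
def lieSpanGenerators : LieSubalgebra K (FreeAlgebra K X) :=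
  LieSubalgebra.lieSpan K (FreeAlgebra K X) (Set.range (FreeAlgebra.ι K))

variable {K X}

lemma lift_mem_lieSpanGenerators (z : FreeLieAlgebra K X) :
    FreeLieAlgebra.lift K (L := FreeAlgebra K X) (FreeAlgebra.ι K) z ∈ lieSpanGenerators K X := by
  let g : FreeLieAlgebra K X →ₗ⁅K⁆ lieSpanGenerators K X :=
    FreeLieAlgebra.lift K fun x => ⟨FreeAlgebra.ι K x, LieSubalgebra.subset_lieSpan ⟨x, rfl⟩⟩
  have h : (lieSpanGenerators K X).incl.comp g =
      FreeLieAlgebra.lift K (L := FreeAlgebra K X) (FreeAlgebra.ι K) :=
    FreeLieAlgebra.hom_ext fun x => by simp [g]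
  rw [← h]
  exact (g z).2

/-- Friedrichs' criterion: the Lie polynomials are the primitive elements. -/
theorem freeComul_eq_iff [CharZero K] (u : FreeAlgebra K X) :
    freeComul K X u = u ⊗ₜ[K] 1 + 1 ⊗ₜ[K] u ↔ u ∈ lieSpanGenerators K X := by
  constructor
  · intro hu
    let e := FreeLieAlgebra.universalEnvelopingEquivFreeAlgebra K X
    have hcomm : (Algebra.TensorProduct.map e.toAlgHom e.toAlgHom).comp
        (comul K (FreeLieAlgebra K X)) = (freeComul K X).comp e.toAlgHom := by
      refine UniversalEnvelopingAlgebra.hom_ext K (FreeLieAlgebra.hom_ext fun x => ?_)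
      show Algebra.TensorProduct.map e.toAlgHom e.toAlgHom (comul K _ (UniversalEnvelopingAlgebra.ι K
        (FreeLieAlgebra.of K x))) = freeComul K X (e (UniversalEnvelopingAlgebra.ι K (FreeLieAlgebra.of K x)))
      have he : e (UniversalEnvelopingAlgebra.ι K (FreeLieAlgebra.of K x)) = FreeAlgebra.ι K x :=
        (UniversalEnvelopingAlgebra.lift_ι_apply K _ _).trans
          (FreeLieAlgebra.lift_of_apply (R := K) _ x)
      rw [comul_ι, map_add, Algebra.TensorProduct.map_tmul, Algebra.TensorProduct.map_tmul, map_one,
        AlgEquiv.coe_toAlgHom, he, freeComul, FreeAlgebra.lift_ι_apply]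
    have hinj : Function.Injective (Algebra.TensorProduct.map e.toAlgHom e.toAlgHom) :=
      (Algebra.TensorProduct.congr e e).injective
    have h : comul K _ (e.symm u) = e.symm u ⊗ₜ[K] 1 + 1 ⊗ₜ[K] e.symm u := hinj (by
      rw [← AlgHom.comp_apply, hcomm, AlgHom.comp_apply, AlgEquiv.coe_toAlgHom,
        AlgEquiv.apply_symm_apply, hu, map_add, Algebra.TensorProduct.map_tmul,
        Algebra.TensorProduct.map_tmul, map_one, AlgEquiv.coe_toAlgHom, AlgEquiv.apply_symm_apply])
    obtain ⟨z, hz⟩ := (primitive_iff _).1 h
    have hu' : u = FreeLieAlgebra.lift K (L := FreeAlgebra K X) (FreeAlgebra.ι K) z := by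
      rw [← e.apply_symm_apply u, ← hz]
      exact UniversalEnvelopingAlgebra.lift_ι_apply K _ z
    rw [hu']
    exact lift_mem_lieSpanGenerators z
  · intro hu
    let S : LieSubalgebra K (FreeAlgebra K X) :=
      { carrier := {u | freeComul K X u = u ⊗ₜ[K] 1 + 1 ⊗ₜ[K] u}
        add_mem' := fun {a b} ha hb => by
          simp only [Set.mem_ofPred_eq] at ha hb ⊢
          rw [map_add, ha, hb, add_tmul, tmul_add]; abel
        zero_mem' := by simp
        smul_mem' := fun t a ha => by
          simp only [Set.mem_ofPred_eq] at ha ⊢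
          rw [map_smul, ha, smul_add, smul_tmul', tmul_smul]
        lie_mem' := fun {a b} ha hb => by
          simp only [Set.mem_ofPred_eq] at ha hb ⊢
          simp only [LieRing.of_associative_ring_bracket, map_sub, map_mul, ha, hb, mul_add, add_mul,
            Algebra.TensorProduct.tmul_mul_tmul, one_mul, mul_one, sub_tmul, tmul_sub]
          abel }
    have hle : lieSpanGenerators K X ≤ S := by
      refine LieSubalgebra.lieSpan_le.2 ?_
      rintro _ ⟨x, rfl⟩
      exact FreeAlgebra.lift_ι_apply _ x
    exact hle hu

end Free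

end FA.BCH
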